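import Fermat.Agent.S26.SpecCube
import Fermat.Agent.S26.H687.Integral
import Fermat.Agent.S25.H567.GeomIntegral

/-!
# Row S26, block CUBE, leaf GI (subtask 548; helper60)

For an abelian variety `X` over an algebraically closed field `K`, the structure morphism
`X.str` is geometrically integral, and so is the structure morphism of a product
`prodStr X.str Y.str`.  These are the hypotheses `hGI` of the glue leaves C3 / C5
(`Skel.inH_of_curveCube`, `Skel.cube_of`) and the instances needed to feed `A × A` into
`Stmt.CurveCube`, `Stmt.LocalOnBase`, `Stmt.GenericTrivial`.

Inputs: `Stmt.Integral K` (block SOFT, leaf INT, `H687.integral`) and the S25 lemma "integral +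
locally noetherian over an algebraically closed field is geometrically integral" (`S25.H567`).

Main statements (all sorry-free, unconditional unless the name ends in `_of_integral`):

* `geometricallyIntegral_of_isIntegral` : `Y` integral, `y : Y ⟶ Spec K` locally of finite type
  ⇒ `GeometricallyIntegral y`;
* `isIntegral_prod`, `geometricallyIntegral_prodStr` : the same for `Y ×_K Z`;
* `geometricallyIntegral_prodStr_of_gi` : the version with hypotheses
  `GeometricallyIntegral y`, `GeometricallyIntegral z`;
* `isProper_prodStr`, `locallyOfFiniteType_prodStr`, `smooth_prodStr`;
* `geometricallyIntegral_str`, `geometricallyIntegral_prodStr_str`, `isIntegral_prod_str`,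
  `isProper_prodStr_str`, `smooth_prodStr_str` : the abelian-variety versions;
* `hGI_all` : exactly the hypothesis `hGI` of `Skel.cube_of`; `hGI` : the one of
  `Skel.inH_of_curveCube`;
* the instances `instGIStr`, `instGIProdStr`, `instProperStr`, `instProperProdStr`,
  `instIntegralA`, `instIntegralProd` (scoped: `open scoped Fermat.Agent.S26.H60`).
-/

set_option autoImplicit false
universe u

open CategoryTheory CategoryTheory.Limits AlgebraicGeometry NeronModelInfra GoodReductionJacobian

namespace Fermat.Agent.S26.H60

section Field

variable {K : Type u} [Field K]

/-- A scheme locally of finite type over a field is locally noetherian. -/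
theorem isLocallyNoetherian_of_locallyOfFiniteType {Y : Scheme.{u}}
    (y : Y ⟶ Spec (CommRingCat.of K)) [LocallyOfFiniteType y] : IsLocallyNoetherian Y :=
  LocallyOfFiniteType.isLocallyNoetherian y

/-- The structure map of a product of two `K`-schemes locally of finite type is locally of
finite type. -/
theorem locallyOfFiniteType_prodStr {Y Z : Scheme.{u}} (y : Y ⟶ Spec (CommRingCat.of K))
    (z : Z ⟶ Spec (CommRingCat.of K)) [LocallyOfFiniteType y] [LocallyOfFiniteType z] :
    LocallyOfFiniteType (prodStr y z) := by
  unfold prodStr
  infer_instance

/-- The structure map of a product of two proper `K`-schemes is proper. -/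
theorem isProper_prodStr {Y Z : Scheme.{u}} (y : Y ⟶ Spec (CommRingCat.of K))
    (z : Z ⟶ Spec (CommRingCat.of K)) [IsProper y] [IsProper z] :
    IsProper (prodStr y z) := by
  unfold prodStr
  infer_instance

/-- The structure map of a product of two smooth `K`-schemes is smooth. -/
theorem smooth_prodStr {Y Z : Scheme.{u}} (y : Y ⟶ Spec (CommRingCat.of K))
    (z : Z ⟶ Spec (CommRingCat.of K)) [Smooth y] [Smooth z] :
    Smooth (prodStr y z) := by
  unfold prodStr
  infer_instance

/-- A scheme which is geometrically integral over a field is integral. -/
theorem isIntegral_of_geometricallyIntegral {Y : Scheme.{u}} (y : Y ⟶ Spec (CommRingCat.of K))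
    [GeometricallyIntegral y] : IsIntegral Y :=
  GeometricallyIntegral.isIntegral_of_subsingleton y

/-! ### Abelian varieties: the bundled properties as lemmas -/

theorem smooth_str (X : AbVar K) : Smooth X.str := X.bundle.smooth

theorem isProper_str (X : AbVar K) : IsProper X.str := X.bundle.proper

theorem locallyOfFiniteType_str (X : AbVar K) : LocallyOfFiniteType X.str :=
  haveI := isProper_str X
  inferInstance

theorem isLocallyNoetherian_abVar (X : AbVar K) : IsLocallyNoetherian X.A :=
  haveI := locallyOfFiniteType_str X
  isLocallyNoetherian_of_locallyOfFiniteType X.str

/-- The structure morphism of the product of two abelian varieties is proper. -/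
theorem isProper_prodStr_str (X Y : AbVar K) : IsProper (prodStr X.str Y.str) :=
  haveI := isProper_str X
  haveI := isProper_str Y
  isProper_prodStr X.str Y.str

/-- The structure morphism of the product of two abelian varieties is smooth. -/
theorem smooth_prodStr_str (X Y : AbVar K) : Smooth (prodStr X.str Y.str) :=
  haveI := smooth_str X
  haveI := smooth_str Y
  smooth_prodStr X.str Y.str

end Field

section AlgClosed

variable {K : Type u} [Field K] [IsAlgClosed K]

/-- An integral scheme, locally of finite type over an algebraically closed field, is
geometrically integral. -/
theorem geometricallyIntegral_of_isIntegral {Y : Scheme.{u}} (y : Y ⟶ Spec (CommRingCat.of K))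
    [LocallyOfFiniteType y] [IsIntegral Y] : GeometricallyIntegral y :=
  haveI := isLocallyNoetherian_of_locallyOfFiniteType y
  S25.H567.geometricallyIntegral_of_isAlgClosed y

/-- The product of two integral schemes, locally of finite type over an algebraically closed
field, is integral. -/
theorem isIntegral_prod {Y Z : Scheme.{u}} (y : Y ⟶ Spec (CommRingCat.of K))
    (z : Z ⟶ Spec (CommRingCat.of K)) [LocallyOfFiniteType y] [LocallyOfFiniteType z]
    [IsIntegral Y] [IsIntegral Z] : IsIntegral (pullback y z) :=
  haveI := isLocallyNoetherian_of_locallyOfFiniteType y
  haveI := isLocallyNoetherian_of_locallyOfFiniteType z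
  S25.H567.isIntegral_pullback_of_isIntegral y z

/-- The product of two integral schemes, locally of finite type over an algebraically closed
field, is geometrically integral. -/
theorem geometricallyIntegral_prodStr {Y Z : Scheme.{u}} (y : Y ⟶ Spec (CommRingCat.of K))
    (z : Z ⟶ Spec (CommRingCat.of K)) [LocallyOfFiniteType y] [LocallyOfFiniteType z]
    [IsIntegral Y] [IsIntegral Z] : GeometricallyIntegral (prodStr y z) :=
  haveI := isIntegral_prod y z
  haveI := locallyOfFiniteType_prodStr y z
  geometricallyIntegral_of_isIntegral (prodStr y z)

/-- The product of two geometrically integral schemes, locally of finite type over an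
algebraically closed field, is geometrically integral. -/
theorem geometricallyIntegral_prodStr_of_gi {Y Z : Scheme.{u}}
    (y : Y ⟶ Spec (CommRingCat.of K)) (z : Z ⟶ Spec (CommRingCat.of K))
    [LocallyOfFiniteType y] [LocallyOfFiniteType z]
    [GeometricallyIntegral y] [GeometricallyIntegral z] :
    GeometricallyIntegral (prodStr y z) :=
  haveI := isIntegral_of_geometricallyIntegral y
  haveI := isIntegral_of_geometricallyIntegral z
  geometricallyIntegral_prodStr y z

/-! ## Abelian varieties -/

/-- **CUBE:GI**, conditional form. -/
theorem geometricallyIntegral_str_of_integral (hInt : Stmt.Integral K) (X : AbVar K) :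
    GeometricallyIntegral X.str :=
  haveI := hInt X
  haveI := locallyOfFiniteType_str X
  geometricallyIntegral_of_isIntegral X.str

/-- The product of two abelian varieties is integral, conditional form. -/
theorem isIntegral_prod_str_of_integral (hInt : Stmt.Integral K) (X Y : AbVar K) :
    IsIntegral (pullback X.str Y.str) :=
  haveI := hInt X
  haveI := hInt Y
  haveI := locallyOfFiniteType_str X
  haveI := locallyOfFiniteType_str Y
  isIntegral_prod X.str Y.str

/-- **CUBE:GI, product version**, conditional form. -/
theorem geometricallyIntegral_prodStr_str_of_integral (hInt : Stmt.Integral K)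
    (X Y : AbVar K) : GeometricallyIntegral (prodStr X.str Y.str) :=
  haveI := hInt X
  haveI := hInt Y
  haveI := locallyOfFiniteType_str X
  haveI := locallyOfFiniteType_str Y
  geometricallyIntegral_prodStr X.str Y.str

/-- An abelian variety over an algebraically closed field is integral (`H687.integral`). -/
theorem isIntegral_abVar (X : AbVar K) : IsIntegral X.A := H687.integral K X

/-- **CUBE:GI.**  The structure morphism of an abelian variety over an algebraically closed
field is geometrically integral. -/
theorem geometricallyIntegral_str (X : AbVar K) : GeometricallyIntegral X.str :=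
  geometricallyIntegral_str_of_integral (H687.integral K) X

/-- The product of two abelian varieties over an algebraically closed field is integral. -/
theorem isIntegral_prod_str (X Y : AbVar K) : IsIntegral (pullback X.str Y.str) :=
  isIntegral_prod_str_of_integral (H687.integral K) X Y

/-- **CUBE:GI, product version.**  The structure morphism of the product of two abelian
varieties over an algebraically closed field is geometrically integral. -/
theorem geometricallyIntegral_prodStr_str (X Y : AbVar K) :
    GeometricallyIntegral (prodStr X.str Y.str) :=
  geometricallyIntegral_prodStr_str_of_integral (H687.integral K) X Y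

/-- Exactly the hypothesis `hGI` of the glue leaf C3 (`Skel.inH_of_curveCube`). -/
theorem hGI : ∀ X : AbVar K, GeometricallyIntegral X.str :=
  fun X => geometricallyIntegral_str X

/-! ### Scoped instances (`open scoped Fermat.Agent.S26.H60`) -/

/-- `X.A` is integral. -/
scoped instance instIntegralA (X : AbVar K) : IsIntegral X.A := isIntegral_abVar X

/-- `X.str` is geometrically integral. -/
scoped instance instGIStr (X : AbVar K) : GeometricallyIntegral X.str :=
  geometricallyIntegral_str X

/-- `A × B` is integral. -/
scoped instance instIntegralProd (X Y : AbVar K) : IsIntegral (pullback X.str Y.str) :=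
  isIntegral_prod_str X Y

/-- `A × B ⟶ Spec K` is geometrically integral. -/
scoped instance instGIProdStr (X Y : AbVar K) : GeometricallyIntegral (prodStr X.str Y.str) :=
  geometricallyIntegral_prodStr_str X Y

end AlgClosed

section Inst

variable {K : Type u} [Field K]

/-- `X.str` is proper. -/
scoped instance instProperStr (X : AbVar K) : IsProper X.str := isProper_str X

/-- `X.str` is smooth. -/
scoped instance instSmoothStr (X : AbVar K) : Smooth X.str := smooth_str X

/-- `A × B ⟶ Spec K` is proper. -/
scoped instance instProperProdStr (X Y : AbVar K) : IsProper (prodStr X.str Y.str) :=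
  isProper_prodStr_str X Y

end Inst

/-- Exactly the hypothesis `hGI` of the glue leaf C5 (`Skel.cube_of`), conditional form. -/
theorem hGI_all_of_integral
    (hInt : ∀ (K' : Type u) [Field K'] [IsAlgClosed K'], Stmt.Integral K') :
    ∀ (K' : Type u) [Field K'] [IsAlgClosed K'] (X : AbVar K'), GeometricallyIntegral X.str :=
  fun K' _ _ X => geometricallyIntegral_str_of_integral (hInt K') X

/-- Exactly the hypothesis `hGI` of the glue leaf C5 (`Skel.cube_of`). -/
theorem hGI_all :
    ∀ (K' : Type u) [Field K'] [IsAlgClosed K'] (X : AbVar K'), GeometricallyIntegral X.str :=
  fun _ _ _ X => geometricallyIntegral_str X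

end Fermat.Agent.S26.H60
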